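import Mathlib
import Fermat.Prelude.Def_ModularCurve_X0
import Fermat.Agent.S24.D9744.FormalJ
import Fermat.Agent.S18.HAUPT.Defs

set_option autoImplicit false

/-!
# The substitution `q ↦ q^d` on power series is a ring homomorphism (helper9469)
-/

namespace Fermat.Agent.S18.HAUPT9469

open PowerSeries ModularCurve Fermat.Agent.S24.D9744

noncomputable section

section Expand

variable {R S : Type*} [CommRing R] [CommRing S]

theorem expandPS_mul (d : ℕ) [NeZero d] (p q : PowerSeries R) :
    expandPS d (p * q) = expandPS d p * expandPS d q := by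
  apply HahnSeries.ofPowerSeries_injective (Γ := ℤ)
  rw [ofPowerSeries_expandPS, map_mul, map_mul, map_mul, ofPowerSeries_expandPS,
    ofPowerSeries_expandPS]

theorem expandPS_X (d : ℕ) [NeZero d] : expandPS d (X : PowerSeries R) = X ^ d := by
  apply HahnSeries.ofPowerSeries_injective (Γ := ℤ)
  rw [ofPowerSeries_expandPS, HahnSeries.ofPowerSeries_X, qExpand_single,
    HahnSeries.ofPowerSeries_X_pow, mul_one]

theorem expandPS_one_ps (d : ℕ) [NeZero d] : expandPS d (1 : PowerSeries R) = 1 := by
  apply HahnSeries.ofPowerSeries_injective (Γ := ℤ)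
  rw [ofPowerSeries_expandPS, map_one, map_one]

theorem expandPS_pow (d : ℕ) [NeZero d] (p : PowerSeries R) (n : ℕ) :
    expandPS d (p ^ n) = expandPS d p ^ n := by
  induction n with
  | zero => rw [pow_zero, pow_zero, expandPS_one_ps]
  | succ n ih => rw [pow_succ, pow_succ, expandPS_mul, ih]

theorem constantCoeff_expandPS (d : ℕ) (p : PowerSeries R) :
    constantCoeff (expandPS d p) = constantCoeff p := by
  rw [← coeff_zero_eq_constantCoeff_apply, coeff_expandPS, if_pos (dvd_zero d), Nat.zero_div,
    coeff_zero_eq_constantCoeff_apply]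

theorem map_expandPS (f : R →+* S) (d : ℕ) (p : PowerSeries R) :
    PowerSeries.map f (expandPS d p) = expandPS d (PowerSeries.map f p) := by
  ext n
  simp only [PowerSeries.coeff_map, coeff_expandPS]
  split_ifs <;> simp

end Expand

theorem hauptV_eq_expandPS (r : ℕ) (P : PowerSeries ℤ) : hauptV r P = expandPS r P := rfl

end

end Fermat.Agent.S18.HAUPT9469
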