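import Mathlib
import Fermat.Prelude.Def_ModularCurve_X0
import Fermat.Agent.S24.D9744.FormalJ
import Fermat.Agent.S24.D9744.QExpBridge

set_option autoImplicit false

/-!
# Truncated integer power series arithmetic by coefficient lists (kernel-checkable)

`Agree n f l` says that the first `n` coefficients of `f : ℤ⟦X⟧` are given by the list `l`.
The closure lemmas below reduce coefficient computations to closed `List ℤ` equalities that
are checked by kernel evaluation.
-/

namespace Fermat.Agent.S18.HAUPT9469

open PowerSeries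

/-- The first `n` coefficients of `f` are given by `l` (padded with zeros). -/
def Agree (n : ℕ) (f : PowerSeries ℤ) (l : List ℤ) : Prop :=
  ∀ i < n, PowerSeries.coeff i f = l.getD i 0

theorem getD_map_range (F : ℕ → ℤ) (n k : ℕ) (hk : k < n) :
    ((List.range n).map F).getD k 0 = F k := by
  simp [List.getD_eq_getElem?_getD, hk]

theorem sum_map_range (F : ℕ → ℤ) (n : ℕ) :
    ((List.range n).map F).sum = ∑ i ∈ Finset.range n, F i := by
  induction n with
  | zero => simp
  | succ n ih => rw [List.range_succ, List.map_append, List.sum_append, ih, Finset.sum_range_succ]; simp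

/-- Truncated product of coefficient lists. -/
def lmul (n : ℕ) (a b : List ℤ) : List ℤ :=
  (List.range n).map fun k =>
    ((List.range (k + 1)).map fun i => a.getD i 0 * b.getD (k - i) 0).sum

/-- Truncated sum of coefficient lists. -/
def ladd (n : ℕ) (a b : List ℤ) : List ℤ :=
  (List.range n).map fun k => a.getD k 0 + b.getD k 0

/-- Truncated difference of coefficient lists. -/
def lsub (n : ℕ) (a b : List ℤ) : List ℤ :=
  (List.range n).map fun k => a.getD k 0 - b.getD k 0

/-- Truncated scalar multiple of a coefficient list. -/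
def lsmul (n : ℕ) (c : ℤ) (a : List ℤ) : List ℤ :=
  (List.range n).map fun k => c * a.getD k 0

/-- Truncated shift (multiplication by `X ^ s`) of a coefficient list. -/
def lshift (n s : ℕ) (a : List ℤ) : List ℤ :=
  (List.range n).map fun k => if s ≤ k then a.getD (k - s) 0 else 0

/-- Truncated substitution `X ↦ X ^ d` on a coefficient list. -/
def lexpand (n d : ℕ) (a : List ℤ) : List ℤ :=
  (List.range n).map fun k => if k % d = 0 then a.getD (k / d) 0 else 0

variable {n : ℕ} {f g : PowerSeries ℤ} {a b c : List ℤ}

theorem Agree.mul (hf : Agree n f a) (hg : Agree n g b) (h : lmul n a b = c) :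
    Agree n (f * g) c := by
  intro i hi
  rw [← h, lmul, getD_map_range _ _ _ hi, sum_map_range, PowerSeries.coeff_mul,
    Finset.Nat.sum_antidiagonal_eq_sum_range_succ_mk]
  refine Finset.sum_congr rfl fun j hj => ?_
  have hj' := Finset.mem_range.mp hj
  rw [hf j (by omega), hg (i - j) (by omega)]

theorem Agree.add (hf : Agree n f a) (hg : Agree n g b) (h : ladd n a b = c) :
    Agree n (f + g) c := by
  intro i hi
  rw [← h, ladd, getD_map_range _ _ _ hi, map_add, hf i hi, hg i hi]

theorem Agree.sub (hf : Agree n f a) (hg : Agree n g b) (h : lsub n a b = c) :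
    Agree n (f - g) c := by
  intro i hi
  rw [← h, lsub, getD_map_range _ _ _ hi, map_sub, hf i hi, hg i hi]

theorem Agree.smul (z : ℤ) (hf : Agree n f a) (h : lsmul n z a = c) :
    Agree n (PowerSeries.C z * f) c := by
  intro i hi
  rw [← h, lsmul, getD_map_range _ _ _ hi, PowerSeries.coeff_C_mul, hf i hi]

theorem Agree.shift (s : ℕ) (hf : Agree n f a) (h : lshift n s a = c) :
    Agree n (PowerSeries.X ^ s * f) c := by
  intro i hi
  rw [← h, lshift, getD_map_range _ _ _ hi, PowerSeries.coeff_X_pow_mul']
  split_ifs with hs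
  · exact hf _ (by omega)
  · rfl

theorem Agree.X_mul (hf : Agree n f a) (h : lshift n 1 a = c) :
    Agree n (PowerSeries.X * f) c := by
  have := hf.shift 1 h
  rwa [_root_.pow_one] at this

theorem Agree.expand (d : ℕ) (hf : Agree n f a) (h : lexpand n d a = c) :
    Agree n (Fermat.Agent.S24.D9744.expandPS d f) c := by
  intro i hi
  rw [← h, lexpand, getD_map_range _ _ _ hi, Fermat.Agent.S24.D9744.coeff_expandPS]
  by_cases hd : d ∣ i
  · rw [if_pos hd, if_pos (Nat.mod_eq_zero_of_dvd hd)]
    exact hf _ (lt_of_le_of_lt (Nat.div_le_self i d) hi)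
  · rw [if_neg hd, if_neg (fun h0 => hd (Nat.dvd_of_mod_eq_zero h0))]

theorem Agree.pow_mul {j k m : ℕ} (hf : Agree n (f ^ j) a) (hg : Agree n (f ^ k) b)
    (hm : j + k = m) (h : lmul n a b = c) : Agree n (f ^ m) c := by
  rw [← hm, pow_add]
  exact hf.mul hg h

theorem Agree.pow_one (hf : Agree n f a) : Agree n (f ^ 1) a := by
  rwa [_root_.pow_one]

theorem Agree.congr (hf : Agree n f a) (hg : Agree n g a) :
    ∀ i < n, PowerSeries.coeff i f = PowerSeries.coeff i g :=
  fun i hi => (hf i hi).trans (hg i hi).symm

theorem Agree.one : Agree n (1 : PowerSeries ℤ) [1] := by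
  intro i hi
  rw [PowerSeries.coeff_one]
  rcases i with _ | i <;> simp

end Fermat.Agent.S18.HAUPT9469
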