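import Mathlib
import Fermat.Prelude.Def_ModularCurve_X0
import Fermat.Agent.S24.D9744.FormalJ
import Fermat.Agent.S24.D9744.QExpBridge
import Fermat.Agent.S18.HAUPT9469.Trunc

set_option autoImplicit false

/-!
# First coefficients of `E₄`, `∏ (1 - qⁿ)` and `Δ`

Machine-generated coefficient certificates (all list equalities are closed and checked by
kernel evaluation).
-/

namespace Fermat.Agent.S18.HAUPT9469

open PowerSeries ModularCurve Fermat.Agent.S24.D9744

theorem agree_E4 : Agree 17 eisenstein4
    [1, 240, 2160, 6720, 17520, 30240, 60480, 82560, 140400, 181680, 272160, 319680, 490560,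
      527520, 743040, 846720, 1123440] := by
  intro i hi
  rw [eisenstein4, PowerSeries.coeff_mk]
  interval_cases i <;> decide +kernel

theorem pentagonal_abs_le (k : ℤ) : k.natAbs ≤ pentagonal k := by
  have h := natCast_pentagonal k
  have h2 : (2 : ℤ) ∣ k * (3 * k - 1) := by
    rcases Int.even_or_odd k with ⟨m, hm⟩ | ⟨m, hm⟩
    · exact ⟨m * (3 * k - 1), by rw [hm]; ring⟩
    · exact ⟨k * (3 * m + 1), by rw [hm]; ring⟩
  obtain ⟨c, hc⟩ := h2
  rw [hc, Int.mul_ediv_cancel_left _ (by norm_num : (2 : ℤ) ≠ 0)] at h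
  have : (k.natAbs : ℤ) ≤ c := by
    rcases le_or_gt 0 k with hk | hk
    · rw [Int.natAbs_of_nonneg hk]
      rcases eq_or_lt_of_le hk with rfl | hk'
      · simp at hc; omega
      · nlinarith
    · rw [Int.ofNat_natAbs_of_nonpos hk.le]
      nlinarith
  omega

theorem coeff_etaProd_of_pentagonal (k : ℤ) (i : ℕ) (v : ℤ) (h : pentagonal k = i)
    (hv : ((Int.negOnePow k : ℤˣ) : ℤ) = v) :
    PowerSeries.coeff i etaProd = v := by
  rw [Fermat.Agent.S24.D9744.etaProd_eq_pentagonalSeries, ← h, ← hv]
  exact coeff_pentagonalSeries_pentagonal ℤ k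

theorem coeff_etaProd_of_not_pentagonal (i : ℕ)
    (h : ∀ k ∈ Finset.Icc (-(i : ℤ)) i, pentagonal k ≠ i) :
    PowerSeries.coeff i etaProd = 0 := by
  rw [Fermat.Agent.S24.D9744.etaProd_eq_pentagonalSeries]
  refine coeff_pentagonalSeries_eq_zero ℤ ?_
  rintro ⟨k, hk⟩
  have h1 := pentagonal_abs_le k
  refine h k ?_ hk
  rw [Finset.mem_Icc]
  constructor <;> omega

theorem agree_etaProd : Agree 17 etaProd
    [1, -1, -1, 0, 0, 1, 0, 1, 0, 0, 0, 0, -1, 0, 0, -1, 0] := by
  intro i hi
  interval_cases i
  · exact coeff_etaProd_of_pentagonal 0 0 _ (by decide) (by decide)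
  · exact coeff_etaProd_of_pentagonal 1 1 _ (by decide) (by decide)
  · exact coeff_etaProd_of_pentagonal (-1) 2 _ (by decide) (by decide)
  · exact coeff_etaProd_of_not_pentagonal 3 (by decide)
  · exact coeff_etaProd_of_not_pentagonal 4 (by decide)
  · exact coeff_etaProd_of_pentagonal 2 5 _ (by decide) (by decide)
  · exact coeff_etaProd_of_not_pentagonal 6 (by decide)
  · exact coeff_etaProd_of_pentagonal (-2) 7 _ (by decide) (by decide)
  · exact coeff_etaProd_of_not_pentagonal 8 (by decide)
  · exact coeff_etaProd_of_not_pentagonal 9 (by decide)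
  · exact coeff_etaProd_of_not_pentagonal 10 (by decide)
  · exact coeff_etaProd_of_not_pentagonal 11 (by decide)
  · exact coeff_etaProd_of_pentagonal 3 12 _ (by decide) (by decide)
  · exact coeff_etaProd_of_not_pentagonal 13 (by decide)
  · exact coeff_etaProd_of_not_pentagonal 14 (by decide)
  · exact coeff_etaProd_of_pentagonal (-3) 15 _ (by decide) (by decide)
  · exact coeff_etaProd_of_not_pentagonal 16 (by decide)

theorem agB1 : Agree 17 (etaProd ^ 1)
    [1, -1, -1, 0, 0, 1, 0, 1, 0, 0, 0, 0, -1, 0, 0, -1, 0] :=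
  agree_etaProd.pow_one

theorem agB2 : Agree 17 (etaProd ^ 2)
    [1, -2, -1, 2, 1, 2, -2, 0, -2, -2, 1, 0, 0, 2, 3, -2, 2] :=
  agB1.pow_mul agB1 rfl (by decide +kernel)

theorem agB3 : Agree 17 (etaProd ^ 3)
    [1, -3, 0, 5, 0, 0, -7, 0, 0, 0, 9, 0, 0, 0, 0, -11, 0] :=
  agB1.pow_mul agB2 rfl (by decide +kernel)

theorem agB4 : Agree 17 (etaProd ^ 6)
    [1, -6, 9, 10, -30, 0, 11, 42, 0, -70, 18, -54, 49, 90, 0, -22, -60] :=
  agB3.pow_mul agB3 rfl (by decide +kernel)

theorem agB5 : Agree 17 (etaProd ^ 12)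
    [1, -12, 54, -88, -99, 540, -418, -648, 594, 836, 1056, -4104, -209, 4104, -594, 4256, -6480] :=
  agB4.pow_mul agB4 rfl (by decide +kernel)

theorem agB6 : Agree 17 (etaProd ^ 24)
    [1, -24, 252, -1472, 4830, -6048, -16744, 84480, -113643, -115920, 534612, -370944, -577738,
      401856, 1217160, 987136, -6905934] :=
  agB5.pow_mul agB5 rfl (by decide +kernel)

theorem agB7 : Agree 17 (eisenstein4 ^ 1)
    [1, 240, 2160, 6720, 17520, 30240, 60480, 82560, 140400, 181680, 272160, 319680, 490560,
      527520, 743040, 846720, 1123440] :=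
  agree_E4.pow_one

theorem agB8 : Agree 17 (eisenstein4 ^ 2)
    [1, 480, 61920, 1050240, 7926240, 37500480, 135480960, 395301120, 1014559200, 2296875360,
      4837561920, 9353842560, 17342613120, 30119288640, 50993844480, 82051050240, 129863578080] :=
  agB7.pow_mul agB7 rfl (by decide +kernel)

theorem agB9 : Agree 17 (eisenstein4 ^ 3)
    [1, 720, 179280, 16954560, 396974160, 4632858720, 34413301440, 187477879680, 814940600400,
      2975469665040, 9486467837280, 27053330840640, 70485969919680, 169930679355360,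
      384163875688320, 820167497170560, 1668890801059920] :=
  agB7.pow_mul agB8 rfl (by decide +kernel)

theorem agree_eta24 : Agree 17 dedekindEtaUnit
    [1, -24, 252, -1472, 4830, -6048, -16744, 84480, -113643, -115920, 534612, -370944, -577738,
      401856, 1217160, 987136, -6905934] :=
  agB6

theorem agree_Delta : Agree 17 (PowerSeries.X * dedekindEtaUnit)
    [0, 1, -24, 252, -1472, 4830, -6048, -16744, 84480, -113643, -115920, 534612, -370944,
      -577738, 401856, 1217160, 987136] :=
  agree_eta24.X_mul (by decide +kernel)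

theorem agree_E4cube : Agree 17 (eisenstein4 ^ 3)
    [1, 720, 179280, 16954560, 396974160, 4632858720, 34413301440, 187477879680, 814940600400,
      2975469665040, 9486467837280, 27053330840640, 70485969919680, 169930679355360,
      384163875688320, 820167497170560, 1668890801059920] :=
  agB9

end Fermat.Agent.S18.HAUPT9469
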