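import Mathlib
import Fermat.Prelude.Def_ModularCurve_X0
import Fermat.Agent.S24.D9744.FormalJ
import Fermat.Agent.S24.D9744.QExpBridge
import Fermat.Agent.S18.HAUPT9469.Trunc
import Fermat.Agent.S18.HAUPT9469.CoeffBase

set_option autoImplicit false

/-!
# Coefficient certificate for the level 2 identity

Machine-generated coefficient certificates (all list equalities are closed and checked by
kernel evaluation).
-/

namespace Fermat.Agent.S18.HAUPT9469

open PowerSeries ModularCurve Fermat.Agent.S24.D9744

theorem agL2_1 : Agree 17 (expandPS 2 (PowerSeries.X * dedekindEtaUnit))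
    [0, 0, 1, 0, -24, 0, 252, 0, -1472, 0, 4830, 0, -6048, 0, -16744, 0, 84480] :=
  agree_Delta.expand 2 (by decide +kernel)

theorem agL2_2 : Agree 17 ((eisenstein4 ^ 3) * (PowerSeries.X * dedekindEtaUnit))
    [0, 1, 696, 162252, 12831808, 34188270, -882400608, -833380744, 25487347200, -20041723323,
      -288074404080, 434433753732, 1007032271616, 2385917303462, -21022079461824, 20516848304040,
      10832015527936] :=
  agree_E4cube.mul agree_Delta (by decide +kernel)

theorem agL2_3 : Agree 17 (((eisenstein4 ^ 3) * (PowerSeries.X * dedekindEtaUnit)) * (expandPS 2 (PowerSeries.X * dedekindEtaUnit)))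
    [0, 0, 0, 1, 696, 162228, 12815104, 30294474, -1190188608, -1613013192, 49897552896,
      8336028459, -1141020749792, 655881703668, 15704496582144, -11700122581074, -159642592252416] :=
  agL2_2.mul agL2_1 (by decide +kernel)

theorem agL2_4 : Agree 17 (PowerSeries.C 256 * (expandPS 2 (PowerSeries.X * dedekindEtaUnit)))
    [0, 0, 256, 0, -6144, 0, 64512, 0, -376832, 0, 1236480, 0, -1548288, 0, -4286464, 0, 21626880] :=
  agL2_1.smul 256 (by decide +kernel)

theorem agL2_5 : Agree 17 (PowerSeries.X * dedekindEtaUnit + (PowerSeries.C 256 * (expandPS 2 (PowerSeries.X * dedekindEtaUnit))))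
    [0, 1, 232, 252, -7616, 4830, 58464, -16744, -292352, -113643, 1120560, 534612, -1919232,
      -577738, -3884608, 1217160, 22614016] :=
  agree_Delta.add agL2_4 (by decide +kernel)

theorem agL2_6 : Agree 17 ((PowerSeries.X * dedekindEtaUnit + (PowerSeries.C 256 * (expandPS 2 (PowerSeries.X * dedekindEtaUnit)))) ^ 1)
    [0, 1, 232, 252, -7616, 4830, 58464, -16744, -292352, -113643, 1120560, 534612, -1919232,
      -577738, -3884608, 1217160, 22614016] :=
  agL2_5.pow_one

theorem agL2_7 : Agree 17 ((PowerSeries.X * dedekindEtaUnit + (PowerSeries.C 256 * (expandPS 2 (PowerSeries.X * dedekindEtaUnit)))) ^ 2)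
    [0, 0, 1, 464, 54328, 101696, -3460660, -1480416, 87531584, -52458624, -1011512338,
      621972208, 8173130912, -2241968832, -52692169096, -2059497888, 252607098368] :=
  agL2_6.pow_mul agL2_6 rfl (by decide +kernel)

theorem agL2_8 : Agree 17 ((PowerSeries.X * dedekindEtaUnit + (PowerSeries.C 256 * (expandPS 2 (PowerSeries.X * dedekindEtaUnit)))) ^ 3)
    [0, 0, 0, 1, 696, 162228, 12815104, 30294474, -1190188608, -1613013192, 49897552896,
      8336028459, -1141020749792, 655881703668, 15704496582144, -11700122581074, -159642592252416] :=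
  agL2_6.pow_mul agL2_7 rfl (by decide +kernel)

/-- The first 17 coefficients of both sides of the level 2 identity agree. -/
theorem level2_coeff (i : ℕ) (hi : i < 17) :
    PowerSeries.coeff i (((eisenstein4 ^ 3) * (PowerSeries.X * dedekindEtaUnit)) * (expandPS 2 (PowerSeries.X * dedekindEtaUnit)))
      = PowerSeries.coeff i ((PowerSeries.X * dedekindEtaUnit + (PowerSeries.C 256 * (expandPS 2 (PowerSeries.X * dedekindEtaUnit)))) ^ 3) :=
  agL2_3.congr agL2_8 i hi

end Fermat.Agent.S18.HAUPT9469
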