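import Mathlib
import Fermat.Prelude.Def_ModularCurve_X0
import Fermat.Agent.S24.D9744.FormalJ
import Fermat.Agent.S24.D9744.QExpBridge
import Fermat.Agent.S18.HAUPT9469.Trunc
import Fermat.Agent.S18.HAUPT9469.CoeffBase

set_option autoImplicit false

/-!
# Coefficient certificate for the second level 2 identity

Machine-generated coefficient certificates (all list equalities are closed and checked by
kernel evaluation).
-/

namespace Fermat.Agent.S18.HAUPT9469

open PowerSeries ModularCurve Fermat.Agent.S24.D9744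

theorem agL2b_1 : Agree 17 (expandPS 2 (PowerSeries.X * dedekindEtaUnit))
    [0, 0, 1, 0, -24, 0, 252, 0, -1472, 0, 4830, 0, -6048, 0, -16744, 0, 84480] :=
  agree_Delta.expand 2 (by decide +kernel)

theorem agL2b_2 : Agree 17 (expandPS 2 eisenstein4)
    [1, 0, 240, 0, 2160, 0, 6720, 0, 17520, 0, 30240, 0, 60480, 0, 82560, 0, 140400] :=
  agree_E4.expand 2 (by decide +kernel)

theorem agL2b_3 : Agree 17 ((expandPS 2 eisenstein4) ^ 1)
    [1, 0, 240, 0, 2160, 0, 6720, 0, 17520, 0, 30240, 0, 60480, 0, 82560, 0, 140400] :=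
  agL2b_2.pow_one

theorem agL2b_4 : Agree 17 ((expandPS 2 eisenstein4) ^ 2)
    [1, 0, 480, 0, 61920, 0, 1050240, 0, 7926240, 0, 37500480, 0, 135480960, 0, 395301120, 0,
      1014559200] :=
  agL2b_3.pow_mul agL2b_3 rfl (by decide +kernel)

theorem agL2b_5 : Agree 17 ((expandPS 2 eisenstein4) ^ 3)
    [1, 0, 720, 0, 179280, 0, 16954560, 0, 396974160, 0, 4632858720, 0, 34413301440, 0,
      187477879680, 0, 814940600400] :=
  agL2b_3.pow_mul agL2b_4 rfl (by decide +kernel)

theorem agL2b_6 : Agree 17 (((expandPS 2 eisenstein4) ^ 3) * (PowerSeries.X * dedekindEtaUnit))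
    [0, 1, -24, 972, -18752, 365550, -5368608, 65593976, -675079680, 5523276357, -35508067920,
      183477719172, -783014010624, 2815402164902, -8635114576704, 22758065548200, -51670586445824] :=
  agL2b_5.mul agree_Delta (by decide +kernel)

theorem agL2b_7 : Agree 17 ((((expandPS 2 eisenstein4) ^ 3) * (PowerSeries.X * dedekindEtaUnit)) * (expandPS 2 (PowerSeries.X * dedekindEtaUnit)))
    [0, 0, 0, 1, -24, 948, -18176, 342474, -4924608, 57064248, -550923264, 4039713579,
      -20631557792, 66915367668, -93128295936, -290992074834, 2177089288704] :=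
  agL2b_6.mul agL2b_1 (by decide +kernel)

theorem agL2b_8 : Agree 17 (PowerSeries.C 16 * (expandPS 2 (PowerSeries.X * dedekindEtaUnit)))
    [0, 0, 16, 0, -384, 0, 4032, 0, -23552, 0, 77280, 0, -96768, 0, -267904, 0, 1351680] :=
  agL2b_1.smul 16 (by decide +kernel)

theorem agL2b_9 : Agree 17 (PowerSeries.X * dedekindEtaUnit + (PowerSeries.C 16 * (expandPS 2 (PowerSeries.X * dedekindEtaUnit))))
    [0, 1, -8, 252, -1856, 4830, -2016, -16744, 60928, -113643, -38640, 534612, -467712, -577738,
      133952, 1217160, 2338816] :=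
  agree_Delta.add agL2b_8 (by decide +kernel)

theorem agL2b_10 : Agree 17 ((PowerSeries.X * dedekindEtaUnit + (PowerSeries.C 16 * (expandPS 2 (PowerSeries.X * dedekindEtaUnit)))) ^ 1)
    [0, 1, -8, 252, -1856, 4830, -2016, -16744, 60928, -113643, -38640, 534612, -467712, -577738,
      133952, 1217160, 2338816] :=
  agL2b_9.pow_one

theorem agL2b_11 : Agree 17 ((PowerSeries.X * dedekindEtaUnit + (PowerSeries.C 16 * (expandPS 2 (PowerSeries.X * dedekindEtaUnit)))) ^ 2)
    [0, 0, 1, -16, 568, -7744, 102860, -1016736, 5877824, -18555264, 21171182, 75127888,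
      -439436128, 1048955328, -643887496, -4166105568, 14283304448] :=
  agL2b_10.pow_mul agL2b_10 rfl (by decide +kernel)

theorem agL2b_12 : Agree 17 ((PowerSeries.X * dedekindEtaUnit + (PowerSeries.C 16 * (expandPS 2 (PowerSeries.X * dedekindEtaUnit)))) ^ 3)
    [0, 0, 0, 1, -24, 948, -18176, 342474, -4924608, 57064248, -550923264, 4039713579,
      -20631557792, 66915367668, -93128295936, -290992074834, 2177089288704] :=
  agL2b_10.pow_mul agL2b_11 rfl (by decide +kernel)

/-- The first 17 coefficients of both sides of the second level 2 identity agree. -/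
theorem level2b_coeff (i : ℕ) (hi : i < 17) :
    PowerSeries.coeff i ((((expandPS 2 eisenstein4) ^ 3) * (PowerSeries.X * dedekindEtaUnit)) * (expandPS 2 (PowerSeries.X * dedekindEtaUnit)))
      = PowerSeries.coeff i ((PowerSeries.X * dedekindEtaUnit + (PowerSeries.C 16 * (expandPS 2 (PowerSeries.X * dedekindEtaUnit)))) ^ 3) :=
  agL2b_7.congr agL2b_12 i hi

end Fermat.Agent.S18.HAUPT9469
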