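import Mathlib
import Fermat.Prelude.Def_ModularCurve_X0
import Fermat.Agent.S24.D9744.FormalJ
import Fermat.Agent.S24.D9744.QExpBridge
import Fermat.Agent.S18.HAUPT9469.Trunc
import Fermat.Agent.S18.HAUPT9469.CoeffBase

set_option autoImplicit false

/-!
# Coefficient certificate for the level 3 identity

Machine-generated coefficient certificates (all list equalities are closed and checked by
kernel evaluation).
-/

namespace Fermat.Agent.S18.HAUPT9469

open PowerSeries ModularCurve Fermat.Agent.S24.D9744

theorem agL3_1 : Agree 17 (expandPS 3 (PowerSeries.X * dedekindEtaUnit))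
    [0, 0, 0, 1, 0, 0, -24, 0, 0, 252, 0, 0, -1472, 0, 0, 4830, 0] :=
  agree_Delta.expand 3 (by decide +kernel)

theorem agL3_2 : Agree 17 ((PowerSeries.X * dedekindEtaUnit) ^ 1)
    [0, 1, -24, 252, -1472, 4830, -6048, -16744, 84480, -113643, -115920, 534612, -370944,
      -577738, 401856, 1217160, 987136] :=
  agree_Delta.pow_one

theorem agL3_3 : Agree 17 ((PowerSeries.X * dedekindEtaUnit) ^ 2)
    [0, 0, 1, -48, 1080, -15040, 143820, -985824, 4857920, -16295040, 28412910, 38671600,
      -424520544, 1268350272, -1211937160, -4306546080, 18293091840] :=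
  agL3_2.pow_mul agL3_2 rfl (by decide +kernel)

theorem agL3_4 : Agree 17 ((expandPS 3 (PowerSeries.X * dedekindEtaUnit)) ^ 1)
    [0, 0, 0, 1, 0, 0, -24, 0, 0, 252, 0, 0, -1472, 0, 0, 4830, 0] :=
  agL3_1.pow_one

theorem agL3_5 : Agree 17 ((expandPS 3 (PowerSeries.X * dedekindEtaUnit)) ^ 2)
    [0, 0, 0, 0, 0, 0, 1, 0, 0, -48, 0, 0, 1080, 0, 0, -15040, 0] :=
  agL3_4.pow_mul agL3_4 rfl (by decide +kernel)

theorem agL3_6 : Agree 17 ((PowerSeries.X * dedekindEtaUnit) * (expandPS 3 (PowerSeries.X * dedekindEtaUnit)))
    [0, 0, 0, 0, 1, -24, 252, -1496, 5406, -12096, 18836, -37488, 95013, -86480, -240420, 461448,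
      156468] :=
  agree_Delta.mul agL3_1 (by decide +kernel)

theorem agL3_7 : Agree 17 (PowerSeries.C 196830 * ((PowerSeries.X * dedekindEtaUnit) * (expandPS 3 (PowerSeries.X * dedekindEtaUnit))))
    [0, 0, 0, 0, 196830, -4723920, 49601160, -294457680, 1064062980, -2380855680, 3707489880,
      -7378763040, 18701408790, -17021858400, -47321868600, 90826809840, 30797596440] :=
  agL3_6.smul 196830 (by decide +kernel)

theorem agL3_8 : Agree 17 ((PowerSeries.X * dedekindEtaUnit) ^ 2 + (PowerSeries.C 196830 * ((PowerSeries.X * dedekindEtaUnit) * (expandPS 3 (PowerSeries.X * dedekindEtaUnit)))))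
    [0, 0, 1, -48, 197910, -4738960, 49744980, -295443504, 1068920900, -2397150720, 3735902790,
      -7340091440, 18276888246, -15753508128, -48533805760, 86520263760, 49090688280] :=
  agL3_3.add agL3_7 (by decide +kernel)

theorem agL3_9 : Agree 17 (PowerSeries.C 387420489 * ((expandPS 3 (PowerSeries.X * dedekindEtaUnit)) ^ 2))
    [0, 0, 0, 0, 0, 0, 387420489, 0, 0, -18596183472, 0, 0, 418414128120, 0, 0, -5826804154560, 0] :=
  agL3_5.smul 387420489 (by decide +kernel)

theorem agL3_10 : Agree 17 ((PowerSeries.X * dedekindEtaUnit) ^ 2 + (PowerSeries.C 196830 * ((PowerSeries.X * dedekindEtaUnit) * (expandPS 3 (PowerSeries.X * dedekindEtaUnit)))) + (PowerSeries.C 387420489 * ((expandPS 3 (PowerSeries.X * dedekindEtaUnit)) ^ 2)))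
    [0, 0, 1, -48, 197910, -4738960, 437165469, -295443504, 1068920900, -20993334192, 3735902790,
      -7340091440, 436691016366, -15753508128, -48533805760, -5740283890800, 49090688280] :=
  agL3_8.add agL3_9 (by decide +kernel)

theorem agL3_11 : Agree 17 (((PowerSeries.X * dedekindEtaUnit) ^ 2 + (PowerSeries.C 196830 * ((PowerSeries.X * dedekindEtaUnit) * (expandPS 3 (PowerSeries.X * dedekindEtaUnit)))) + (PowerSeries.C 387420489 * ((expandPS 3 (PowerSeries.X * dedekindEtaUnit)) ^ 2))) ^ 1)
    [0, 0, 1, -48, 197910, -4738960, 437165469, -295443504, 1068920900, -20993334192, 3735902790,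
      -7340091440, 436691016366, -15753508128, -48533805760, -5740283890800, 49090688280] :=
  agL3_10.pow_one

theorem agL3_12 : Agree 17 (((PowerSeries.X * dedekindEtaUnit) ^ 2 + (PowerSeries.C 196830 * ((PowerSeries.X * dedekindEtaUnit) * (expandPS 3 (PowerSeries.X * dedekindEtaUnit)))) + (PowerSeries.C 387420489 * ((expandPS 3 (PowerSeries.X * dedekindEtaUnit)) ^ 2))) ^ 2)
    [0, 0, 0, 0, 1, -96, 398124, -28477280, 40497639198, -1918333919232, 195527078239364,
      -4260506392772544, 194338960283947653, -276756497621582912, 1222330942278791628,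
      -19025088944838264288, 17056116962597468244] :=
  agL3_11.pow_mul agL3_11 rfl (by decide +kernel)

theorem agL3_13 : Agree 17 (PowerSeries.C 756 * (PowerSeries.X * dedekindEtaUnit))
    [0, 756, -18144, 190512, -1112832, 3651480, -4572288, -12658464, 63866880, -85914108,
      -87635520, 404166672, -280433664, -436769928, 303803136, 920172960, 746274816] :=
  agree_Delta.smul 756 (by decide +kernel)

theorem agL3_14 : Agree 17 (PowerSeries.C 756 * (PowerSeries.X * dedekindEtaUnit) - (eisenstein4 ^ 3))
    [-1, 36, -197424, -16764048, -398086992, -4629207240, -34417873728, -187490538144,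
      -814876733520, -2975555579148, -9486555472800, -27052926673968, -70486250353344,
      -169931116125288, -384163571885184, -820166576997600, -1668890054785104] :=
  agL3_13.sub agree_E4cube (by decide +kernel)

theorem agL3_15 : Agree 17 (PowerSeries.C 19131876 * (expandPS 3 (PowerSeries.X * dedekindEtaUnit)))
    [0, 0, 0, 19131876, 0, 0, -459165024, 0, 0, 4821232752, 0, 0, -28162121472, 0, 0,
      92406961080, 0] :=
  agL3_1.smul 19131876 (by decide +kernel)

theorem agL3_16 : Agree 17 (PowerSeries.C 756 * (PowerSeries.X * dedekindEtaUnit) - (eisenstein4 ^ 3) + (PowerSeries.C 19131876 * (expandPS 3 (PowerSeries.X * dedekindEtaUnit))))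
    [-1, 36, -197424, 2367828, -398086992, -4629207240, -34877038752, -187490538144,
      -814876733520, -2970734346396, -9486555472800, -27052926673968, -70514412474816,
      -169931116125288, -384163571885184, -820074170036520, -1668890054785104] :=
  agL3_14.add agL3_15 (by decide +kernel)

theorem agL3_17 : Agree 17 ((PowerSeries.C 756 * (PowerSeries.X * dedekindEtaUnit) - (eisenstein4 ^ 3) + (PowerSeries.C 19131876 * (expandPS 3 (PowerSeries.X * dedekindEtaUnit)))) ^ 1)
    [-1, 36, -197424, 2367828, -398086992, -4629207240, -34877038752, -187490538144,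
      -814876733520, -2970734346396, -9486555472800, -27052926673968, -70514412474816,
      -169931116125288, -384163571885184, -820074170036520, -1668890054785104] :=
  agL3_16.pow_one

theorem agL3_18 : Agree 17 ((PowerSeries.C 756 * (PowerSeries.X * dedekindEtaUnit) - (eisenstein4 ^ 3) + (PowerSeries.C 19131876 * (expandPS 3 (PowerSeries.X * dedekindEtaUnit)))) ^ 2)
    [1, -72, 396144, -18950184, 39942893376, -954335999088, 162526913211024, -59505997601088,
      150310179590128992, 3594466247553264312, 48631417400980693152, 469494553014161059680,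
      3590732165460948648864, 22953669471447451867728, 126950632927311897842688,
      621886626324436636458576, 2745675023060155245187104] :=
  agL3_17.pow_mul agL3_17 rfl (by decide +kernel)

theorem agL3_19 : Agree 17 (((PowerSeries.X * dedekindEtaUnit) * (expandPS 3 (PowerSeries.X * dedekindEtaUnit))) * ((PowerSeries.C 756 * (PowerSeries.X * dedekindEtaUnit) - (eisenstein4 ^ 3) + (PowerSeries.C 19131876 * (expandPS 3 (PowerSeries.X * dedekindEtaUnit)))) ^ 2))
    [0, 0, 0, 0, 1, -96, 398124, -28477280, 40497639198, -1918333919232, 195527078239364,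
      -4260506392772544, 194338960283947653, -276756497621582912, 1222330942278791628,
      -19025088944838264288, 17056116962597468244] :=
  agL3_6.mul agL3_18 (by decide +kernel)

/-- The first 17 coefficients of both sides of the (squared) level 3 identity agree. -/
theorem level3_coeff (i : ℕ) (hi : i < 17) :
    PowerSeries.coeff i (((PowerSeries.X * dedekindEtaUnit) ^ 2 + (PowerSeries.C 196830 * ((PowerSeries.X * dedekindEtaUnit) * (expandPS 3 (PowerSeries.X * dedekindEtaUnit)))) + (PowerSeries.C 387420489 * ((expandPS 3 (PowerSeries.X * dedekindEtaUnit)) ^ 2))) ^ 2)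
      = PowerSeries.coeff i (((PowerSeries.X * dedekindEtaUnit) * (expandPS 3 (PowerSeries.X * dedekindEtaUnit))) * ((PowerSeries.C 756 * (PowerSeries.X * dedekindEtaUnit) - (eisenstein4 ^ 3) + (PowerSeries.C 19131876 * (expandPS 3 (PowerSeries.X * dedekindEtaUnit)))) ^ 2)) :=
  agL3_12.congr agL3_19 i hi

end Fermat.Agent.S18.HAUPT9469
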