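import Mathlib
import Fermat.Prelude.Def_ModularCurve_X0
import Fermat.Agent.S24.D9744.FormalJ
import Fermat.Agent.S24.D9744.QExpBridge
import Fermat.Agent.S18.HAUPT9469.Trunc
import Fermat.Agent.S18.HAUPT9469.CoeffBase

set_option autoImplicit false

/-!
# Coefficient certificate for the second level 3 identity

Machine-generated coefficient certificates (all list equalities are closed and checked by
kernel evaluation).
-/

namespace Fermat.Agent.S18.HAUPT9469

open PowerSeries ModularCurve Fermat.Agent.S24.D9744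

theorem agL3b_1 : Agree 17 (expandPS 3 (PowerSeries.X * dedekindEtaUnit))
    [0, 0, 0, 1, 0, 0, -24, 0, 0, 252, 0, 0, -1472, 0, 0, 4830, 0] :=
  agree_Delta.expand 3 (by decide +kernel)

theorem agL3b_2 : Agree 17 (expandPS 3 eisenstein4)
    [1, 0, 0, 240, 0, 0, 2160, 0, 0, 6720, 0, 0, 17520, 0, 0, 30240, 0] :=
  agree_E4.expand 3 (by decide +kernel)

theorem agL3b_3 : Agree 17 ((expandPS 3 eisenstein4) ^ 1)
    [1, 0, 0, 240, 0, 0, 2160, 0, 0, 6720, 0, 0, 17520, 0, 0, 30240, 0] :=
  agL3b_2.pow_one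

theorem agL3b_4 : Agree 17 ((expandPS 3 eisenstein4) ^ 2)
    [1, 0, 0, 480, 0, 0, 61920, 0, 0, 1050240, 0, 0, 7926240, 0, 0, 37500480, 0] :=
  agL3b_3.pow_mul agL3b_3 rfl (by decide +kernel)

theorem agL3b_5 : Agree 17 ((expandPS 3 eisenstein4) ^ 3)
    [1, 0, 0, 720, 0, 0, 179280, 0, 0, 16954560, 0, 0, 396974160, 0, 0, 4632858720, 0] :=
  agL3b_3.pow_mul agL3b_4 rfl (by decide +kernel)

theorem agL3b_6 : Agree 17 ((PowerSeries.X * dedekindEtaUnit) ^ 1)
    [0, 1, -24, 252, -1472, 4830, -6048, -16744, 84480, -113643, -115920, 534612, -370944,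
      -577738, 401856, 1217160, 987136] :=
  agree_Delta.pow_one

theorem agL3b_7 : Agree 17 ((PowerSeries.X * dedekindEtaUnit) ^ 2)
    [0, 0, 1, -48, 1080, -15040, 143820, -985824, 4857920, -16295040, 28412910, 38671600,
      -424520544, 1268350272, -1211937160, -4306546080, 18293091840] :=
  agL3b_6.pow_mul agL3b_6 rfl (by decide +kernel)

theorem agL3b_8 : Agree 17 ((expandPS 3 (PowerSeries.X * dedekindEtaUnit)) ^ 1)
    [0, 0, 0, 1, 0, 0, -24, 0, 0, 252, 0, 0, -1472, 0, 0, 4830, 0] :=
  agL3b_1.pow_one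

theorem agL3b_9 : Agree 17 ((expandPS 3 (PowerSeries.X * dedekindEtaUnit)) ^ 2)
    [0, 0, 0, 0, 0, 0, 1, 0, 0, -48, 0, 0, 1080, 0, 0, -15040, 0] :=
  agL3b_8.pow_mul agL3b_8 rfl (by decide +kernel)

theorem agL3b_10 : Agree 17 ((PowerSeries.X * dedekindEtaUnit) * (expandPS 3 (PowerSeries.X * dedekindEtaUnit)))
    [0, 0, 0, 0, 1, -24, 252, -1496, 5406, -12096, 18836, -37488, 95013, -86480, -240420, 461448,
      156468] :=
  agree_Delta.mul agL3b_1 (by decide +kernel)

theorem agL3b_11 : Agree 17 (PowerSeries.C 270 * ((PowerSeries.X * dedekindEtaUnit) * (expandPS 3 (PowerSeries.X * dedekindEtaUnit))))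
    [0, 0, 0, 0, 270, -6480, 68040, -403920, 1459620, -3265920, 5085720, -10121760, 25653510,
      -23349600, -64913400, 124590960, 42246360] :=
  agL3b_10.smul 270 (by decide +kernel)

theorem agL3b_12 : Agree 17 ((PowerSeries.X * dedekindEtaUnit) ^ 2 + (PowerSeries.C 270 * ((PowerSeries.X * dedekindEtaUnit) * (expandPS 3 (PowerSeries.X * dedekindEtaUnit)))))
    [0, 0, 1, -48, 1350, -21520, 211860, -1389744, 6317540, -19560960, 33498630, 28549840,
      -398867034, 1245000672, -1276850560, -4181955120, 18335338200] :=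
  agL3b_7.add agL3b_11 (by decide +kernel)

theorem agL3b_13 : Agree 17 (PowerSeries.C 729 * ((expandPS 3 (PowerSeries.X * dedekindEtaUnit)) ^ 2))
    [0, 0, 0, 0, 0, 0, 729, 0, 0, -34992, 0, 0, 787320, 0, 0, -10964160, 0] :=
  agL3b_9.smul 729 (by decide +kernel)

theorem agL3b_14 : Agree 17 ((PowerSeries.X * dedekindEtaUnit) ^ 2 + (PowerSeries.C 270 * ((PowerSeries.X * dedekindEtaUnit) * (expandPS 3 (PowerSeries.X * dedekindEtaUnit)))) + (PowerSeries.C 729 * ((expandPS 3 (PowerSeries.X * dedekindEtaUnit)) ^ 2)))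
    [0, 0, 1, -48, 1350, -21520, 212589, -1389744, 6317540, -19595952, 33498630, 28549840,
      -398079714, 1245000672, -1276850560, -4192919280, 18335338200] :=
  agL3b_12.add agL3b_13 (by decide +kernel)

theorem agL3b_15 : Agree 17 (((PowerSeries.X * dedekindEtaUnit) ^ 2 + (PowerSeries.C 270 * ((PowerSeries.X * dedekindEtaUnit) * (expandPS 3 (PowerSeries.X * dedekindEtaUnit)))) + (PowerSeries.C 729 * ((expandPS 3 (PowerSeries.X * dedekindEtaUnit)) ^ 2))) ^ 1)
    [0, 0, 1, -48, 1350, -21520, 212589, -1389744, 6317540, -19595952, 33498630, 28549840,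
      -398079714, 1245000672, -1276850560, -4192919280, 18335338200] :=
  agL3b_14.pow_one

theorem agL3b_16 : Agree 17 (((PowerSeries.X * dedekindEtaUnit) ^ 2 + (PowerSeries.C 270 * ((PowerSeries.X * dedekindEtaUnit) * (expandPS 3 (PowerSeries.X * dedekindEtaUnit)))) + (PowerSeries.C 729 * ((expandPS 3 (PowerSeries.X * dedekindEtaUnit)) ^ 2))) ^ 2)
    [0, 0, 0, 0, 1, -96, 5004, -172640, 4313598, -81292032, 1183151204, -13547815104,
      124014231333, -918863335232, 5547786538668, -27215285112288, 106195231483284] :=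
  agL3b_15.pow_mul agL3b_15 rfl (by decide +kernel)

theorem agL3b_17 : Agree 17 (PowerSeries.C 36 * (PowerSeries.X * dedekindEtaUnit))
    [0, 36, -864, 9072, -52992, 173880, -217728, -602784, 3041280, -4091148, -4173120, 19246032,
      -13353984, -20798568, 14466816, 43817760, 35536896] :=
  agree_Delta.smul 36 (by decide +kernel)

theorem agL3b_18 : Agree 17 (PowerSeries.C 756 * (expandPS 3 (PowerSeries.X * dedekindEtaUnit)))
    [0, 0, 0, 756, 0, 0, -18144, 0, 0, 190512, 0, 0, -1112832, 0, 0, 3651480, 0] :=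
  agL3b_1.smul 756 (by decide +kernel)

theorem agL3b_19 : Agree 17 (PowerSeries.C 36 * (PowerSeries.X * dedekindEtaUnit) + (PowerSeries.C 756 * (expandPS 3 (PowerSeries.X * dedekindEtaUnit))))
    [0, 36, -864, 9828, -52992, 173880, -235872, -602784, 3041280, -3900636, -4173120, 19246032,
      -14466816, -20798568, 14466816, 47469240, 35536896] :=
  agL3b_17.add agL3b_18 (by decide +kernel)

theorem agL3b_20 : Agree 17 (PowerSeries.C 36 * (PowerSeries.X * dedekindEtaUnit) + (PowerSeries.C 756 * (expandPS 3 (PowerSeries.X * dedekindEtaUnit))) - ((expandPS 3 eisenstein4) ^ 3))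
    [-1, 36, -864, 9108, -52992, 173880, -415152, -602784, 3041280, -20855196, -4173120,
      19246032, -411440976, -20798568, 14466816, -4585389480, 35536896] :=
  agL3b_19.sub agL3b_5 (by decide +kernel)

theorem agL3b_21 : Agree 17 ((PowerSeries.C 36 * (PowerSeries.X * dedekindEtaUnit) + (PowerSeries.C 756 * (expandPS 3 (PowerSeries.X * dedekindEtaUnit))) - ((expandPS 3 eisenstein4) ^ 3)) ^ 1)
    [-1, 36, -864, 9108, -52992, 173880, -415152, -602784, 3041280, -20855196, -4173120,
      19246032, -411440976, -20798568, 14466816, -4585389480, 35536896] :=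
  agL3b_20.pow_one

theorem agL3b_22 : Agree 17 ((PowerSeries.C 36 * (PowerSeries.X * dedekindEtaUnit) + (PowerSeries.C 756 * (expandPS 3 (PowerSeries.X * dedekindEtaUnit))) - ((expandPS 3 eisenstein4) ^ 3)) ^ 2)
    [1, -72, 3024, -80424, 1508256, -19901808, 187875504, -1294452288, 6643449792, -24688613448,
      56504850912, 10610978400, -730078502976, 3629589741648, -7912128114432, 2710010642256,
      87421775197824] :=
  agL3b_21.pow_mul agL3b_21 rfl (by decide +kernel)

theorem agL3b_23 : Agree 17 (((PowerSeries.X * dedekindEtaUnit) * (expandPS 3 (PowerSeries.X * dedekindEtaUnit))) * ((PowerSeries.C 36 * (PowerSeries.X * dedekindEtaUnit) + (PowerSeries.C 756 * (expandPS 3 (PowerSeries.X * dedekindEtaUnit))) - ((expandPS 3 eisenstein4) ^ 3)) ^ 2))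
    [0, 0, 0, 0, 1, -96, 5004, -172640, 4313598, -81292032, 1183151204, -13547815104,
      124014231333, -918863335232, 5547786538668, -27215285112288, 106195231483284] :=
  agL3b_10.mul agL3b_22 (by decide +kernel)

/-- The first 17 coefficients of both sides of the second (squared) level 3 identity agree. -/
theorem level3b_coeff (i : ℕ) (hi : i < 17) :
    PowerSeries.coeff i (((PowerSeries.X * dedekindEtaUnit) ^ 2 + (PowerSeries.C 270 * ((PowerSeries.X * dedekindEtaUnit) * (expandPS 3 (PowerSeries.X * dedekindEtaUnit)))) + (PowerSeries.C 729 * ((expandPS 3 (PowerSeries.X * dedekindEtaUnit)) ^ 2))) ^ 2)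
      = PowerSeries.coeff i (((PowerSeries.X * dedekindEtaUnit) * (expandPS 3 (PowerSeries.X * dedekindEtaUnit))) * ((PowerSeries.C 36 * (PowerSeries.X * dedekindEtaUnit) + (PowerSeries.C 756 * (expandPS 3 (PowerSeries.X * dedekindEtaUnit))) - ((expandPS 3 eisenstein4) ^ 3)) ^ 2)) :=
  agL3b_16.congr agL3b_23 i hi

end Fermat.Agent.S18.HAUPT9469
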