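import Mathlib
import Fermat.Prelude.Def_ModularCurve_X0
import Fermat.Prelude.Thm_ModularForm_sturm_bound_Gamma0
import Fermat.Agent.S24.D9744.AlgDegree
import Fermat.Agent.S24.CountingIndex

set_option autoImplicit false

/-!
# Integral `q`-expansions of modular forms on `Γ₀(N)` and the Sturm bound

`IsQExp N k p`: the integral power series `p` is the `q`-expansion of a modular form of weight
`k` on `Γ₀(N)`.  Closure under ring operations, the generators `E₄(q^d)`, `Δ(q^d)` and the
Sturm criterion for vanishing.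
-/

namespace Fermat.Agent.S18.HAUPT9469

open ModularCurve UpperHalfPlane ModularForm CongruenceSubgroup Fermat.Agent.S24.D9744
open scoped MatrixGroups

noncomputable section

/-- The coefficient embedding `ℤ⟦X⟧ → ℂ⟦X⟧`. -/
abbrev zc : PowerSeries ℤ →+* PowerSeries ℂ := PowerSeries.map (Int.castRingHom ℂ)

theorem zc_injective : Function.Injective zc := by
  intro p p' h
  ext n
  have := congrArg (PowerSeries.coeff n) h
  simpa [zc, PowerSeries.coeff_map] using this

theorem zc_expandPS (d : ℕ) (p : PowerSeries ℤ) : zc (expandPS d p) = expandPS d (zc p) := by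
  ext n
  simp only [zc, PowerSeries.coeff_map, coeff_expandPS]
  split_ifs <;> simp

/-- `p` is the `q`-expansion of a modular form of weight `k` on `Γ₀(N)`. -/
def IsQExp (N : ℕ) (k : ℤ) (p : PowerSeries ℤ) : Prop :=
  ∃ G : ModularForm (G0 N) k, qExpansion 1 G = zc p

variable {N : ℕ} {k k' : ℤ} {p p' : PowerSeries ℤ}

theorem IsQExp.cast (h : IsQExp N k p) (hk : k = k') : IsQExp N k' p := by
  subst hk
  exact h

theorem IsQExp.mul (h : IsQExp N k p) (h' : IsQExp N k' p') : IsQExp N (k + k') (p * p') := by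
  obtain ⟨G, hG⟩ := h
  obtain ⟨G', hG'⟩ := h'
  refine ⟨G.mul G', ?_⟩
  rw [ModularForm.qExpansion_mul one_pos (one_mem_strictPeriods_G0 N), hG, hG', map_mul]

theorem IsQExp.add (h : IsQExp N k p) (h' : IsQExp N k p') : IsQExp N k (p + p') := by
  obtain ⟨G, hG⟩ := h
  obtain ⟨G', hG'⟩ := h'
  refine ⟨G + G', ?_⟩
  rw [FunLike.coe_add, ModularForm.qExpansion_add one_pos (one_mem_strictPeriods_G0 N), hG, hG',
    map_add]

theorem IsQExp.smul (c : ℤ) (h : IsQExp N k p) : IsQExp N k (PowerSeries.C c * p) := by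
  obtain ⟨G, hG⟩ := h
  refine ⟨(c : ℂ) • G, ?_⟩
  rw [FunLike.coe_smul, ModularForm.qExpansion_smul one_pos (one_mem_strictPeriods_G0 N), hG,
    map_mul]
  ext n
  rw [PowerSeries.coeff_smul, smul_eq_mul, PowerSeries.map_C, PowerSeries.coeff_C_mul]
  simp

theorem IsQExp.neg (h : IsQExp N k p) : IsQExp N k (-p) := by
  have := h.smul (-1)
  simpa using this

theorem IsQExp.sub (h : IsQExp N k p) (h' : IsQExp N k p') : IsQExp N k (p - p') := by
  rw [sub_eq_add_neg]
  exact h.add h'.neg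

theorem IsQExp.pow (h : IsQExp N k p) (n : ℕ) : IsQExp N ((n : ℤ) * k) (p ^ n) := by
  obtain ⟨G, hG⟩ := h
  refine ⟨G.pow n, ?_⟩
  rw [ModularForm.qExpansion_pow one_pos (one_mem_strictPeriods_G0 N), hG, map_pow]

/-- `E₄(q^d)` on `Γ₀(N)` for `d ∣ N`. -/
theorem isQExp_E4 (N d : ℕ) [NeZero N] [NeZero d] (hd : d ∣ N) :
    IsQExp N 4 (expandPS d eisenstein4) := by
  refine ⟨levelLift N d hd E₄, ?_⟩
  rw [qExpansion_levelLift, qExpansion_E4, zc_expandPS]

/-- `Δ(q^d)` on `Γ₀(N)` for `d ∣ N`. -/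
theorem isQExp_Delta (N d : ℕ) [NeZero N] [NeZero d] (hd : d ∣ N) :
    IsQExp N 12 (expandPS d (PowerSeries.X * dedekindEtaUnit)) := by
  refine ⟨levelLift N d hd DeltaM, ?_⟩
  rw [qExpansion_levelLift, qExpansion_DeltaM, zc_expandPS]
  congr 1
  simp [zc]

theorem expandPS_one (p : PowerSeries ℤ) : expandPS 1 p = p := by
  ext n
  simp [coeff_expandPS]

/-- **Sturm criterion**: a `q`-expansion of weight `k` on `Γ₀(N)` whose first `B + 1`
coefficients vanish, with `k ψ(N) / 12 ≤ B`, is zero. -/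
theorem IsQExp.eq_zero [NeZero N] (h : IsQExp N k p) (B : ℕ)
    (hB : (k * (dedekindPsi N : ℤ)).toNat / 12 ≤ B)
    (h0 : ∀ n ≤ B, PowerSeries.coeff n p = 0) : p = 0 := by
  obtain ⟨G, hG⟩ := h
  have hidx : (Gamma0 N).index = dedekindPsi N :=
    Fermat.Agent.S24.Cnt.index_Gamma0 N (NeZero.ne N)
  have hq := qExpansion_eq_zero_of_sturm (N := N) G B (by rw [hidx]; exact hB) (fun n hn => by
    rw [hG]
    simp [zc, PowerSeries.coeff_map, h0 n hn])
  rw [hG] at hq
  exact zc_injective (by rw [hq, map_zero])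

end

end Fermat.Agent.S18.HAUPT9469
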