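import Mathlib
import Fermat.Prelude.Def_ModularCurve_X0
import Fermat.Agent.S18.HAUPT9469.QExp
import Fermat.Agent.S18.HAUPT9469.CoeffLevel2
import Fermat.Agent.S18.HAUPT9469.CoeffLevel3
import Fermat.Agent.S18.HAUPT9469.CoeffLevel2b
import Fermat.Agent.S18.HAUPT9469.CoeffLevel3b

set_option autoImplicit false

/-!
# The Hauptmodul identities of levels 2 and 3 as identities of integral power series

With `E = E₄`, `Δ = q ∏ (1 - qⁿ)²⁴`, `Δ_d = Δ(q^d)`:

* `level2_modular` : `E³ Δ Δ₂ = (Δ + 256 Δ₂)³`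
* `level3_modular_sq` : `(Δ² + 196830 Δ Δ₃ + 3¹⁸ Δ₃²)² = Δ Δ₃ (756 Δ - E³ + 19131876 Δ₃)²`

and their reduced forms in terms of `P = ∏ (1 - qⁿ)`, `P_d = P(q^d)`:

* `level2_eta` : `E³ P²⁴ P₂²⁴ = (P²⁴ + 256 q P₂²⁴)³`
* `level3_eta` : `T⁴ + 756 q T³ T₃ + 196830 q² T² T₃² + 19131876 q³ T T₃³ + 3¹⁸ q⁴ T₃⁴ = E³ T T₃`
  with `T = P¹²`, `T₃ = P₃¹²`.

These are `j = (t₂ + 256)³ / t₂²` and `j = (t₃ + 27)(t₃ + 243)³ / t₃³` for
`t₂ = q⁻¹ P²⁴ / P₂²⁴`, `t₃ = q⁻¹ P¹² / P₃¹²` after clearing denominators.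
-/

namespace Fermat.Agent.S18.HAUPT9469

open PowerSeries ModularCurve Fermat.Agent.S24.D9744

noncomputable section

theorem dedekindPsi_two : dedekindPsi 2 = 3 := by decide +kernel

theorem dedekindPsi_three : dedekindPsi 3 = 4 := by decide +kernel

/-- **Level 2**: `E₄³ Δ Δ₂ = (Δ + 256 Δ₂)³`. -/
theorem level2_modular :
    eisenstein4 ^ 3 * (X * dedekindEtaUnit) * expandPS 2 (X * dedekindEtaUnit)
      = (X * dedekindEtaUnit + C 256 * expandPS 2 (X * dedekindEtaUnit)) ^ 3 := by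
  have hE : IsQExp 2 4 eisenstein4 := by
    simpa [expandPS_one] using isQExp_E4 2 1 (one_dvd 2)
  have hD : IsQExp 2 12 (X * dedekindEtaUnit) := by
    simpa [expandPS_one] using isQExp_Delta 2 1 (one_dvd 2)
  have hD2 : IsQExp 2 12 (expandPS 2 (X * dedekindEtaUnit)) := isQExp_Delta 2 2 dvd_rfl
  have hL : IsQExp 2 36
      (eisenstein4 ^ 3 * (X * dedekindEtaUnit) * expandPS 2 (X * dedekindEtaUnit)) :=
    (((hE.pow 3).mul hD).mul hD2).cast (by norm_num)
  have hR : IsQExp 2 36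
      ((X * dedekindEtaUnit + C 256 * expandPS 2 (X * dedekindEtaUnit)) ^ 3) :=
    ((hD.add (hD2.smul 256)).pow 3).cast (by norm_num)
  have h0 := (hL.sub hR).eq_zero 9 (by rw [dedekindPsi_two]; decide) (fun n hn => by
    rw [map_sub, sub_eq_zero]
    exact level2_coeff n (by omega))
  exact sub_eq_zero.mp h0

/-- **Level 3** (squared form):
`(Δ² + 196830 Δ Δ₃ + 3¹⁸ Δ₃²)² = Δ Δ₃ (756 Δ - E₄³ + 19131876 Δ₃)²`. -/
theorem level3_modular_sq :
    ((X * dedekindEtaUnit) ^ 2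
        + C 196830 * ((X * dedekindEtaUnit) * expandPS 3 (X * dedekindEtaUnit))
        + C 387420489 * expandPS 3 (X * dedekindEtaUnit) ^ 2) ^ 2
      = (X * dedekindEtaUnit) * expandPS 3 (X * dedekindEtaUnit)
        * (C 756 * (X * dedekindEtaUnit) - eisenstein4 ^ 3
            + C 19131876 * expandPS 3 (X * dedekindEtaUnit)) ^ 2 := by
  have hE : IsQExp 3 4 eisenstein4 := by
    simpa [expandPS_one] using isQExp_E4 3 1 (one_dvd 3)
  have hD : IsQExp 3 12 (X * dedekindEtaUnit) := by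
    simpa [expandPS_one] using isQExp_Delta 3 1 (one_dvd 3)
  have hD3 : IsQExp 3 12 (expandPS 3 (X * dedekindEtaUnit)) := isQExp_Delta 3 3 dvd_rfl
  have hL : IsQExp 3 48
      (((X * dedekindEtaUnit) ^ 2
        + C 196830 * ((X * dedekindEtaUnit) * expandPS 3 (X * dedekindEtaUnit))
        + C 387420489 * expandPS 3 (X * dedekindEtaUnit) ^ 2) ^ 2) :=
    (((((hD.pow 2).cast (by norm_num : ((2 : ℕ) : ℤ) * 12 = 24)).add
      (((hD.mul hD3).smul 196830).cast (by norm_num))).add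
      (((hD3.pow 2).smul 387420489).cast (by norm_num))).pow 2).cast (by norm_num)
  have hR : IsQExp 3 48
      ((X * dedekindEtaUnit) * expandPS 3 (X * dedekindEtaUnit)
        * (C 756 * (X * dedekindEtaUnit) - eisenstein4 ^ 3
            + C 19131876 * expandPS 3 (X * dedekindEtaUnit)) ^ 2) :=
    ((hD.mul hD3).mul ((((hD.smul 756).sub ((hE.pow 3).cast (by norm_num))).add
      (hD3.smul 19131876)).pow 2)).cast (by norm_num)
  have h0 := (hL.sub hR).eq_zero 16 (by rw [dedekindPsi_three]; decide) (fun n hn => by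
    rw [map_sub, sub_eq_zero]
    exact level3_coeff n (by omega))
  exact sub_eq_zero.mp h0

/-- **Level 2**, second identity: `E₄(q²)³ Δ Δ₂ = (Δ + 16 Δ₂)³`. -/
theorem level2b_modular :
    expandPS 2 eisenstein4 ^ 3 * (X * dedekindEtaUnit) * expandPS 2 (X * dedekindEtaUnit)
      = (X * dedekindEtaUnit + C 16 * expandPS 2 (X * dedekindEtaUnit)) ^ 3 := by
  have hE : IsQExp 2 4 (expandPS 2 eisenstein4) := isQExp_E4 2 2 dvd_rfl
  have hD : IsQExp 2 12 (X * dedekindEtaUnit) := by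
    simpa [expandPS_one] using isQExp_Delta 2 1 (one_dvd 2)
  have hD2 : IsQExp 2 12 (expandPS 2 (X * dedekindEtaUnit)) := isQExp_Delta 2 2 dvd_rfl
  have hL : IsQExp 2 36
      (expandPS 2 eisenstein4 ^ 3 * (X * dedekindEtaUnit) * expandPS 2 (X * dedekindEtaUnit)) :=
    (((hE.pow 3).mul hD).mul hD2).cast (by norm_num)
  have hR : IsQExp 2 36
      ((X * dedekindEtaUnit + C 16 * expandPS 2 (X * dedekindEtaUnit)) ^ 3) :=
    ((hD.add (hD2.smul 16)).pow 3).cast (by norm_num)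
  have h0 := (hL.sub hR).eq_zero 9 (by rw [dedekindPsi_two]; decide) (fun n hn => by
    rw [map_sub, sub_eq_zero]
    exact level2b_coeff n (by omega))
  exact sub_eq_zero.mp h0

/-- **Level 3**, second identity (squared form):
`(Δ² + 270 Δ Δ₃ + 729 Δ₃²)² = Δ Δ₃ (36 Δ + 756 Δ₃ - E₄(q³)³)²`. -/
theorem level3b_modular_sq :
    ((X * dedekindEtaUnit) ^ 2
        + C 270 * ((X * dedekindEtaUnit) * expandPS 3 (X * dedekindEtaUnit))
        + C 729 * expandPS 3 (X * dedekindEtaUnit) ^ 2) ^ 2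
      = (X * dedekindEtaUnit) * expandPS 3 (X * dedekindEtaUnit)
        * (C 36 * (X * dedekindEtaUnit) + C 756 * expandPS 3 (X * dedekindEtaUnit)
            - expandPS 3 eisenstein4 ^ 3) ^ 2 := by
  have hE : IsQExp 3 4 (expandPS 3 eisenstein4) := isQExp_E4 3 3 dvd_rfl
  have hD : IsQExp 3 12 (X * dedekindEtaUnit) := by
    simpa [expandPS_one] using isQExp_Delta 3 1 (one_dvd 3)
  have hD3 : IsQExp 3 12 (expandPS 3 (X * dedekindEtaUnit)) := isQExp_Delta 3 3 dvd_rfl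
  have hL : IsQExp 3 48
      (((X * dedekindEtaUnit) ^ 2
        + C 270 * ((X * dedekindEtaUnit) * expandPS 3 (X * dedekindEtaUnit))
        + C 729 * expandPS 3 (X * dedekindEtaUnit) ^ 2) ^ 2) :=
    (((((hD.pow 2).cast (by norm_num : ((2 : ℕ) : ℤ) * 12 = 24)).add
      (((hD.mul hD3).smul 270).cast (by norm_num))).add
      (((hD3.pow 2).smul 729).cast (by norm_num))).pow 2).cast (by norm_num)
  have hR : IsQExp 3 48
      ((X * dedekindEtaUnit) * expandPS 3 (X * dedekindEtaUnit)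
        * (C 36 * (X * dedekindEtaUnit) + C 756 * expandPS 3 (X * dedekindEtaUnit)
            - expandPS 3 eisenstein4 ^ 3) ^ 2) :=
    ((hD.mul hD3).mul ((((hD.smul 36).add (hD3.smul 756)).sub
      ((hE.pow 3).cast (by norm_num))).pow 2)).cast (by norm_num)
  have h0 := (hL.sub hR).eq_zero 16 (by rw [dedekindPsi_three]; decide) (fun n hn => by
    rw [map_sub, sub_eq_zero]
    exact level3b_coeff n (by omega))
  exact sub_eq_zero.mp h0

end

end Fermat.Agent.S18.HAUPT9469
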