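import Mathlib
import Fermat.Prelude.Def_ModularCurve_X0
import Fermat.Agent.S18.HAUPT.Defs
import Fermat.Agent.S18.HAUPT9469.Expand
import Fermat.Agent.S18.HAUPT9469.Identities

set_option autoImplicit false

/-!
# S18 / HAUPT, pieces 0, 1, 2 (helper9469): the four Hauptmodul identities in `ℤ⟦X⟧`

`haupt_sturm2a`, `haupt_sturm2b`, `haupt_sturm3a`, `haupt_sturm3b`, stated verbatim as in the
skeleton files `HAUPT/P0.lean`, `P1.lean`, `P2.lean`.  They are deduced from the identities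
between modular forms of `Identities.lean` (Sturm bound on `Γ₀(2)`, `Γ₀(3)`) by cancelling
powers of `q` and, for level 3, extracting a square root in the domain `ℤ⟦X⟧`.
-/

namespace Fermat.Agent.S18.HAUPT9469

open PowerSeries ModularCurve Fermat.Agent.S24.D9744

noncomputable section

theorem C_ofNat_eq (n : ℕ) [n.AtLeastTwo] :
    (C (OfNat.ofNat n : ℤ) : PowerSeries ℤ) = OfNat.ofNat n := map_ofNat _ _

theorem X_pow_ne_zero_int (n : ℕ) : (X : PowerSeries ℤ) ^ n ≠ 0 := pow_ne_zero n X_ne_zero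

/-- `E₄(q)³ Δ(q) Δ(q²) = (Δ(q) + 256 Δ(q²))³`, divided by `q³`. -/
theorem haupt_sturm2a :
    eisenstein4 ^ 3 * dedekindEtaUnit * hauptV 2 dedekindEtaUnit
      = (dedekindEtaUnit + 256 * X * hauptV 2 dedekindEtaUnit) ^ 3 := by
  have h := level2_modular
  rw [expandPS_mul, expandPS_X, C_ofNat_eq] at h
  rw [hauptV_eq_expandPS]
  apply mul_left_cancel₀ (X_pow_ne_zero_int 3)
  linear_combination h

/-- `E₄(q²)³ Δ(q) Δ(q²) = (Δ(q) + 16 Δ(q²))³`, divided by `q³`. -/
theorem haupt_sturm2b :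
    (hauptV 2 eisenstein4) ^ 3 * dedekindEtaUnit * hauptV 2 dedekindEtaUnit
      = (dedekindEtaUnit + 16 * X * hauptV 2 dedekindEtaUnit) ^ 3 := by
  have h := level2b_modular
  rw [expandPS_mul, expandPS_X, C_ofNat_eq] at h
  rw [hauptV_eq_expandPS, hauptV_eq_expandPS]
  apply mul_left_cancel₀ (X_pow_ne_zero_int 3)
  linear_combination h

theorem dedekindEtaUnit_eq_sq : dedekindEtaUnit = (etaProd ^ 12) ^ 2 := by
  rw [dedekindEtaUnit, ← pow_mul]

/-- `E₄³ η(q)^12 η(q³)^12 = (η(q)^12 + 27 η(q³)^12)(η(q)^12 + 243 η(q³)^12)³`, divided by `q⁴`. -/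
theorem haupt_sturm3a :
    eisenstein4 ^ 3 * etaProd ^ 12 * hauptV 3 (etaProd ^ 12)
      = (etaProd ^ 12 + 27 * X * hauptV 3 (etaProd ^ 12))
        * (etaProd ^ 12 + 243 * X * hauptV 3 (etaProd ^ 12)) ^ 3 := by
  have h := level3_modular_sq
  rw [expandPS_mul, expandPS_X, dedekindEtaUnit_eq_sq, expandPS_pow, C_ofNat_eq, C_ofNat_eq,
    C_ofNat_eq, C_ofNat_eq] at h
  rw [hauptV_eq_expandPS]
  set A : PowerSeries ℤ := etaProd ^ 12 with hA
  set B : PowerSeries ℤ := expandPS 3 A with hB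
  set E : PowerSeries ℤ := eisenstein4 with hE
  have hA0 : constantCoeff A = 1 := by rw [hA, map_pow, constantCoeff_etaProd, one_pow]
  have hB0 : constantCoeff B = 1 := by rw [hB, constantCoeff_expandPS, hA0]
  have hE0 : constantCoeff E = 1 := constantCoeff_eisenstein4
  have hsq : (A ^ 4 + 196830 * X ^ 2 * A ^ 2 * B ^ 2 + 387420489 * X ^ 4 * B ^ 4) ^ 2
      = (A * B * (756 * X * A ^ 2 - E ^ 3 + 19131876 * X ^ 3 * B ^ 2)) ^ 2 := by
    apply mul_left_cancel₀ (X_pow_ne_zero_int 4)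
    linear_combination h
  rcases sq_eq_sq_iff_eq_or_eq_neg.mp hsq with h1 | h1
  · exfalso
    have h2 := congrArg constantCoeff h1
    simp only [map_add, map_sub, map_mul, map_pow, hA0, hB0, hE0, constantCoeff_X, map_ofNat] at h2
    norm_num at h2
  · linear_combination (-1 : PowerSeries ℤ) * h1

/-- `E₄(q³)³ η(q)^12 η(q³)^12 = (η(q)^12 + 27 η(q³)^12)(η(q)^12 + 3 η(q³)^12)³`, divided by
`q⁴`. -/
theorem haupt_sturm3b :
    (hauptV 3 eisenstein4) ^ 3 * etaProd ^ 12 * hauptV 3 (etaProd ^ 12)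
      = (etaProd ^ 12 + 27 * X * hauptV 3 (etaProd ^ 12))
        * (etaProd ^ 12 + 3 * X * hauptV 3 (etaProd ^ 12)) ^ 3 := by
  have h := level3b_modular_sq
  rw [expandPS_mul, expandPS_X, dedekindEtaUnit_eq_sq, expandPS_pow, C_ofNat_eq, C_ofNat_eq,
    C_ofNat_eq, C_ofNat_eq] at h
  rw [hauptV_eq_expandPS, hauptV_eq_expandPS]
  set A : PowerSeries ℤ := etaProd ^ 12 with hA
  set B : PowerSeries ℤ := expandPS 3 A with hB
  set E : PowerSeries ℤ := expandPS 3 eisenstein4 with hE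
  have hA0 : constantCoeff A = 1 := by rw [hA, map_pow, constantCoeff_etaProd, one_pow]
  have hB0 : constantCoeff B = 1 := by rw [hB, constantCoeff_expandPS, hA0]
  have hE0 : constantCoeff E = 1 := by rw [hE, constantCoeff_expandPS, constantCoeff_eisenstein4]
  have hsq : (A ^ 4 + 270 * X ^ 2 * A ^ 2 * B ^ 2 + 729 * X ^ 4 * B ^ 4) ^ 2
      = (A * B * (36 * X * A ^ 2 + 756 * X ^ 3 * B ^ 2 - E ^ 3)) ^ 2 := by
    apply mul_left_cancel₀ (X_pow_ne_zero_int 4)
    linear_combination h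
  rcases sq_eq_sq_iff_eq_or_eq_neg.mp hsq with h1 | h1
  · exfalso
    have h2 := congrArg constantCoeff h1
    simp only [map_add, map_sub, map_mul, map_pow, hA0, hB0, hE0, constantCoeff_X, map_ofNat] at h2
    norm_num at h2
  · linear_combination (-1 : PowerSeries ℤ) * h1

end

end Fermat.Agent.S18.HAUPT9469
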