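import Mathlib
import Fermat.Prelude.Def_ModularCurve_JqCoeff
import Fermat.Agent.S18.HAUPT.Defs
import Fermat.Agent.S18.HAUPT.P0
import Fermat.Agent.S18.HAUPT.P1
import Fermat.Agent.S18.HAUPT.P2
import Fermat.Agent.S18.HAUPT9469.Expand

set_option autoImplicit false

/-!
# S18 / HAUPT, piece 3 (helper9469): the Hauptmodul identities in `K((q))`

Formal consequences of `haupt_sturm2a/2b/3a/3b` (skeleton pieces 0-2): all statements of
`HAUPT/P3.lean`, verbatim, in the namespace `Fermat.Agent.S18.HAUPT9469`.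
-/

namespace Fermat.Agent.S18.HAUPT9469

open ModularCurve PowerSeries Fermat.Agent.S24.D9744

noncomputable section

/-! ### Pure algebra -/

section Alg

variable {R : Type*} [CommRing R]

theorem alg_T2 (E D Di V W x c : R) (hD : D * Di = 1) (hV : V * W = 1)
    (h : E ^ 3 * D * V = (D + c * x * V) ^ 3) :
    (E ^ 3 * Di) * (D * W) ^ 2 = (D * W + c * x) ^ 3 := by
  have e1 : (E ^ 3 * Di) * (D * W) ^ 2 = (E ^ 3 * D * V) * W ^ 3 := by
    linear_combination (E ^ 3 * D * W ^ 2) * hD - (E ^ 3 * D * W ^ 2) * hV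
  have e2 : (D + c * x * V) ^ 3 * W ^ 3 = (D * W + c * x) ^ 3 := by
    rw [← mul_pow]
    congr 1
    linear_combination (c * x) * hV
  rw [e1, h, e2]

theorem alg_T2b (E D V W x c : R) (hV : V * W = 1)
    (h : E ^ 3 * D * V = (D + c * x * V) ^ 3) :
    (E ^ 3 * W) * (D * W) = (D * W + c * x) ^ 3 := by
  have e1 : (E ^ 3 * W) * (D * W) = (E ^ 3 * D * V) * W ^ 3 := by
    linear_combination (-(E ^ 3 * D * W ^ 2)) * hV
  have e2 : (D + c * x * V) ^ 3 * W ^ 3 = (D * W + c * x) ^ 3 := by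
    rw [← mul_pow]
    congr 1
    linear_combination (c * x) * hV
  rw [e1, h, e2]

theorem alg_T3_rhs (A V W x c₁ c₂ : R) (hV : V * W = 1) :
    (A + c₁ * x * V) * (A + c₂ * x * V) ^ 3 * W ^ 4
      = (A * W + c₁ * x) * (A * W + c₂ * x) ^ 3 := by
  have k1 : (A + c₁ * x * V) * W = A * W + c₁ * x := by linear_combination (c₁ * x) * hV
  have k2 : (A + c₂ * x * V) * W = A * W + c₂ * x := by linear_combination (c₂ * x) * hV
  calc (A + c₁ * x * V) * (A + c₂ * x * V) ^ 3 * W ^ 4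
      = ((A + c₁ * x * V) * W) * ((A + c₂ * x * V) * W) ^ 3 := by ring
    _ = _ := by rw [k1, k2]

theorem alg_T3 (E A Di V W x c₁ c₂ : R) (hD : A ^ 2 * Di = 1) (hV : V * W = 1)
    (h : E ^ 3 * A * V = (A + c₁ * x * V) * (A + c₂ * x * V) ^ 3) :
    (E ^ 3 * Di) * (A * W) ^ 3 = (A * W + c₁ * x) * (A * W + c₂ * x) ^ 3 := by
  have e1 : (E ^ 3 * Di) * (A * W) ^ 3 = (E ^ 3 * A * V) * W ^ 4 := by
    linear_combination (E ^ 3 * A * W ^ 3) * hD - (E ^ 3 * A * W ^ 3) * hV
  rw [e1, h, alg_T3_rhs A V W x c₁ c₂ hV]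

theorem alg_T3b (E A V W x c₁ c₂ : R) (hV : V * W = 1)
    (h : E ^ 3 * A * V = (A + c₁ * x * V) * (A + c₂ * x * V) ^ 3) :
    (E ^ 3 * W ^ 2) * (A * W) = (A * W + c₁ * x) * (A * W + c₂ * x) ^ 3 := by
  have e1 : (E ^ 3 * W ^ 2) * (A * W) = (E ^ 3 * A * V) * W ^ 4 := by
    linear_combination (-(E ^ 3 * A * W ^ 3)) * hV
  rw [e1, h, alg_T3_rhs A V W x c₁ c₂ hV]

theorem alg_inv_unique (V W W' : R) (hV : V * W = 1) (hV' : V * W' = 1) : W' = W := by
  linear_combination W * hV' - W' * hV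

end Alg

/-! ### The identities in `ℤ⟦X⟧` -/

theorem constantCoeff_hauptV (r : ℕ) (P : PowerSeries ℤ) :
    constantCoeff (hauptV r P) = constantCoeff P := by
  rw [hauptV_eq_expandPS, constantCoeff_expandPS]

theorem hauptV2_mul_inv :
    hauptV 2 dedekindEtaUnit * (hauptV 2 dedekindEtaUnit).invOfUnit 1 = 1 :=
  PowerSeries.mul_invOfUnit _ _ (by
    rw [constantCoeff_hauptV, constantCoeff_dedekindEtaUnit]; rfl)

theorem constantCoeff_eta12 : constantCoeff (etaProd ^ 12) = 1 := by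
  rw [map_pow, constantCoeff_etaProd, one_pow]

theorem hauptV3_mul_inv :
    hauptV 3 (etaProd ^ 12) * (hauptV 3 (etaProd ^ 12)).invOfUnit 1 = 1 :=
  PowerSeries.mul_invOfUnit _ _ (by
    rw [constantCoeff_hauptV, constantCoeff_eta12]; rfl)

theorem eta12_sq_mul_inv : (etaProd ^ 12) ^ 2 * dedekindEtaUnitInv = 1 := by
  rw [← pow_mul]
  exact dedekindEtaUnit_mul_inv

theorem expandPS_two_inv :
    expandPS 2 dedekindEtaUnitInv = (hauptV 2 dedekindEtaUnit).invOfUnit 1 := by
  refine alg_inv_unique (hauptV 2 dedekindEtaUnit) _ _ hauptV2_mul_inv ?_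
  rw [hauptV_eq_expandPS, ← expandPS_mul, dedekindEtaUnit_mul_inv, expandPS_one_ps]

theorem expandPS_three_inv :
    expandPS 3 dedekindEtaUnitInv = (hauptV 3 (etaProd ^ 12)).invOfUnit 1 ^ 2 := by
  refine alg_inv_unique (hauptV 3 (etaProd ^ 12) ^ 2) _ _ ?_ ?_
  · rw [← mul_pow, hauptV3_mul_inv, one_pow]
  · rw [hauptV_eq_expandPS, ← expandPS_pow, ← expandPS_mul, eta12_sq_mul_inv, expandPS_one_ps]

theorem int_T2_jq : jNum * hauptU2 ^ 2 = (hauptU2 + 256 * X) ^ 3 :=
  alg_T2 eisenstein4 dedekindEtaUnit dedekindEtaUnitInv (hauptV 2 dedekindEtaUnit)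
    ((hauptV 2 dedekindEtaUnit).invOfUnit 1) X 256 dedekindEtaUnit_mul_inv hauptV2_mul_inv
    Fermat.Agent.S18.haupt_sturm2a

theorem int_T2_jq2 : expandPS 2 jNum * hauptU2 = (hauptU2 + 16 * X) ^ 3 := by
  have h := alg_T2b (hauptV 2 eisenstein4) dedekindEtaUnit (hauptV 2 dedekindEtaUnit)
    ((hauptV 2 dedekindEtaUnit).invOfUnit 1) X 16 hauptV2_mul_inv
    Fermat.Agent.S18.haupt_sturm2b
  rw [jNum, expandPS_mul, expandPS_pow, expandPS_two_inv]
  exact h

theorem int_T3_jq : jNum * hauptU3 ^ 3 = (hauptU3 + 27 * X) * (hauptU3 + 243 * X) ^ 3 :=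
  alg_T3 eisenstein4 (etaProd ^ 12) dedekindEtaUnitInv (hauptV 3 (etaProd ^ 12))
    ((hauptV 3 (etaProd ^ 12)).invOfUnit 1) X 27 243 eta12_sq_mul_inv hauptV3_mul_inv
    Fermat.Agent.S18.haupt_sturm3a

theorem int_T3_jq3 : expandPS 3 jNum * hauptU3 = (hauptU3 + 27 * X) * (hauptU3 + 3 * X) ^ 3 := by
  have h := alg_T3b (hauptV 3 eisenstein4) (etaProd ^ 12) (hauptV 3 (etaProd ^ 12))
    ((hauptV 3 (etaProd ^ 12)).invOfUnit 1) X 27 3 hauptV3_mul_inv
    Fermat.Agent.S18.haupt_sturm3b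
  rw [jNum, expandPS_mul, expandPS_pow, expandPS_three_inv]
  exact h

theorem hauptU2_constantCoeff : PowerSeries.constantCoeff hauptU2 = 1 := by
  rw [hauptU2, map_mul, constantCoeff_dedekindEtaUnit, PowerSeries.constantCoeff_invOfUnit]
  simp

theorem hauptU3_constantCoeff : PowerSeries.constantCoeff hauptU3 = 1 := by
  rw [hauptU3, map_mul, constantCoeff_eta12, PowerSeries.constantCoeff_invOfUnit]
  simp

/-! ### Lifting to Laurent series over `K` -/

section Lift

variable (K : Type*) [CommRing K]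

/-- The ring homomorphism `ℤ⟦X⟧ → K((q))`. -/
def liftK : PowerSeries ℤ →+* LaurentSeries K :=
  (HahnSeries.ofPowerSeries ℤ K).comp (PowerSeries.map (Int.castRingHom K))

theorem liftK_apply (p : PowerSeries ℤ) :
    liftK K p = HahnSeries.ofPowerSeries ℤ K (p.map (Int.castRingHom K)) := rfl

/-- `q⁻¹` in `K((q))`. -/
def qInv : LaurentSeries K := HahnSeries.single (-1 : ℤ) (1 : K)

theorem qInv_mul_liftK_X : qInv K * liftK K X = 1 := by
  rw [liftK_apply, PowerSeries.map_X, HahnSeries.ofPowerSeries_X, qInv,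
    HahnSeries.single_mul_single]
  simp

theorem jqModC_eq : jqModC K = qInv K * liftK K jNum := rfl

theorem hauptT2_eq : hauptT2 K = qInv K * liftK K hauptU2 := rfl

theorem hauptT3_eq : hauptT3 K = qInv K * liftK K hauptU3 := rfl

theorem qExpand_qInv (d : ℕ) [NeZero d] : qExpand K d (qInv K) = qInv K ^ d := by
  rw [qInv, qExpand_single, HahnSeries.single_pow, one_pow]
  congr 1

theorem qExpand_liftK (d : ℕ) [NeZero d] (p : PowerSeries ℤ) :
    qExpand K d (liftK K p) = liftK K (expandPS d p) := by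
  rw [liftK_apply, liftK_apply, map_expandPS, ofPowerSeries_expandPS]

theorem jqNModC_eq (d : ℕ) [NeZero d] :
    jqNModC K d = qInv K ^ d * liftK K (expandPS d jNum) := by
  rw [jqNModC, jqModC_eq, map_mul, qExpand_qInv, qExpand_liftK]

end Lift

/-! ### The statements of the skeleton -/

theorem map_qInv_mul_liftK {K K' : Type*} [CommRing K] [CommRing K'] (f : K →+* K')
    (u : PowerSeries ℤ) :
    (qInv K * liftK K u).map f = qInv K' * liftK K' u := by
  have hmul : ∀ x y : LaurentSeries K, (x * y).map f = x.map f * y.map f :=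
    fun x y => HahnSeries.map_mul f.toNonUnitalRingHom
  have hsingle : (HahnSeries.single (-1 : ℤ) (1 : K)).map f = HahnSeries.single (-1 : ℤ) 1 := by
    ext g
    rw [HahnSeries.map_coeff, HahnSeries.coeff_single, HahnSeries.coeff_single, apply_ite f,
      map_one, map_zero]
  have hseries : ∀ v : PowerSeries K,
      (HahnSeries.ofPowerSeries ℤ K v).map f = HahnSeries.ofPowerSeries ℤ K' (v.map f) := by
    intro v
    ext k
    rw [HahnSeries.map_coeff]
    rcases le_or_gt 0 k with hk | hk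
    · lift k to ℕ using hk
      rw [HahnSeries.ofPowerSeries_apply_coeff, HahnSeries.ofPowerSeries_apply_coeff,
        PowerSeries.coeff_map]
    · rw [ofPowerSeries_coeff_of_neg _ hk, ofPowerSeries_coeff_of_neg _ hk, map_zero]
  rw [hmul, qInv, hsingle, liftK_apply, hseries, qInv, liftK_apply,
    show (u.map (Int.castRingHom K)).map f = u.map (Int.castRingHom K') from by
      rw [show PowerSeries.map f (PowerSeries.map (Int.castRingHom K) u)
            = PowerSeries.map (f.comp (Int.castRingHom K)) u from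
          (congrFun (congrArg DFunLike.coe (PowerSeries.map_comp (Int.castRingHom K) f)) u).symm,
        RingHom.ext_int (f.comp (Int.castRingHom K)) (Int.castRingHom K')]]

theorem hauptT2_map {K K' : Type*} [CommRing K] [CommRing K'] (f : K →+* K') :
    (hauptT2 K).map f = hauptT2 K' := by
  rw [hauptT2_eq, hauptT2_eq]
  exact map_qInv_mul_liftK f hauptU2

theorem hauptT3_map {K K' : Type*} [CommRing K] [CommRing K'] (f : K →+* K') :
    (hauptT3 K).map f = hauptT3 K' := by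
  rw [hauptT3_eq, hauptT3_eq]
  exact map_qInv_mul_liftK f hauptU3

theorem coeff_neg_one_qInv_mul_liftK (K : Type*) [CommRing K] (u : PowerSeries ℤ) :
    (qInv K * liftK K u).coeff (-1) = ((constantCoeff u : ℤ) : K) := by
  rw [qInv, HahnSeries.coeff_single_mul, one_mul, sub_self, liftK_apply,
    show (0 : ℤ) = ((0 : ℕ) : ℤ) from rfl, HahnSeries.ofPowerSeries_apply_coeff,
    PowerSeries.coeff_map, PowerSeries.coeff_zero_eq_constantCoeff]
  simp

theorem coeff_qInv_mul_liftK_of_lt (K : Type*) [CommRing K] (u : PowerSeries ℤ) {k : ℤ}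
    (hk : k < -1) : (qInv K * liftK K u).coeff k = 0 := by
  rw [qInv, HahnSeries.coeff_single_mul, one_mul, liftK_apply,
    ofPowerSeries_coeff_of_neg _ (by omega)]

theorem hauptT2_coeff_neg_one (K : Type*) [CommRing K] : (hauptT2 K).coeff (-1) = 1 := by
  rw [hauptT2_eq, coeff_neg_one_qInv_mul_liftK, hauptU2_constantCoeff, Int.cast_one]

theorem hauptT2_coeff_of_lt (K : Type*) [CommRing K] {k : ℤ} (hk : k < -1) :
    (hauptT2 K).coeff k = 0 := by
  rw [hauptT2_eq, coeff_qInv_mul_liftK_of_lt K _ hk]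

theorem hauptT3_coeff_neg_one (K : Type*) [CommRing K] : (hauptT3 K).coeff (-1) = 1 := by
  rw [hauptT3_eq, coeff_neg_one_qInv_mul_liftK, hauptU3_constantCoeff, Int.cast_one]

theorem hauptT3_coeff_of_lt (K : Type*) [CommRing K] {k : ℤ} (hk : k < -1) :
    (hauptT3 K).coeff k = 0 := by
  rw [hauptT3_eq, coeff_qInv_mul_liftK_of_lt K _ hk]

theorem isUnit_qInv_mul_liftK (K : Type*) [CommRing K] (u : PowerSeries ℤ)
    (hu : constantCoeff u = 1) : IsUnit (qInv K * liftK K u) := by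
  refine IsUnit.mul ?_ ?_
  · exact IsUnit.of_mul_eq_one _ (qInv_mul_liftK_X K)
  · refine IsUnit.map (liftK K) ?_
    rw [PowerSeries.isUnit_iff_constantCoeff, hu]
    exact isUnit_one

/-- `t₂` is a unit of `K((q))`, for every nontrivial commutative ring `K`. -/
theorem hauptT2_isUnit (K : Type*) [CommRing K] : IsUnit (hauptT2 K) := by
  rw [hauptT2_eq]
  exact isUnit_qInv_mul_liftK K _ hauptU2_constantCoeff

theorem hauptT3_isUnit (K : Type*) [CommRing K] : IsUnit (hauptT3 K) := by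
  rw [hauptT3_eq]
  exact isUnit_qInv_mul_liftK K _ hauptU3_constantCoeff

/-- `j · t₂² = (t₂ + 256)³`. -/
theorem hauptT2_jq (K : Type*) [CommRing K] :
    jqModC K * hauptT2 K ^ 2 = (hauptT2 K + 256) ^ 3 := by
  have key := congrArg (liftK K) int_T2_jq
  simp only [map_mul, map_pow, map_add, map_ofNat] at key
  have hx := qInv_mul_liftK_X K
  rw [jqModC_eq, hauptT2_eq]
  calc qInv K * liftK K jNum * (qInv K * liftK K hauptU2) ^ 2
      = qInv K ^ 3 * (liftK K jNum * liftK K hauptU2 ^ 2) := by ring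
    _ = qInv K ^ 3 * (liftK K hauptU2 + 256 * liftK K X) ^ 3 := by rw [key]
    _ = (qInv K * liftK K hauptU2 + 256 * (qInv K * liftK K X)) ^ 3 := by ring
    _ = _ := by rw [hx, mul_one]

/-- `j(q²) · t₂ = (t₂ + 16)³`. -/
theorem hauptT2_jq2 (K : Type*) [CommRing K] :
    jqNModC K 2 * hauptT2 K = (hauptT2 K + 16) ^ 3 := by
  have key := congrArg (liftK K) int_T2_jq2
  simp only [map_mul, map_pow, map_add, map_ofNat] at key
  have hx := qInv_mul_liftK_X K
  rw [jqNModC_eq, hauptT2_eq]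
  calc qInv K ^ 2 * liftK K (expandPS 2 jNum) * (qInv K * liftK K hauptU2)
      = qInv K ^ 3 * (liftK K (expandPS 2 jNum) * liftK K hauptU2) := by ring
    _ = qInv K ^ 3 * (liftK K hauptU2 + 16 * liftK K X) ^ 3 := by rw [key]
    _ = (qInv K * liftK K hauptU2 + 16 * (qInv K * liftK K X)) ^ 3 := by ring
    _ = _ := by rw [hx, mul_one]

/-- `j · t₃³ = (t₃ + 27)(t₃ + 243)³`. -/
theorem hauptT3_jq (K : Type*) [CommRing K] :
    jqModC K * hauptT3 K ^ 3 = (hauptT3 K + 27) * (hauptT3 K + 243) ^ 3 := by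
  have key := congrArg (liftK K) int_T3_jq
  simp only [map_mul, map_pow, map_add, map_ofNat] at key
  have hx := qInv_mul_liftK_X K
  rw [jqModC_eq, hauptT3_eq]
  calc qInv K * liftK K jNum * (qInv K * liftK K hauptU3) ^ 3
      = qInv K ^ 4 * (liftK K jNum * liftK K hauptU3 ^ 3) := by ring
    _ = qInv K ^ 4 * ((liftK K hauptU3 + 27 * liftK K X)
          * (liftK K hauptU3 + 243 * liftK K X) ^ 3) := by rw [key]
    _ = (qInv K * liftK K hauptU3 + 27 * (qInv K * liftK K X))
          * (qInv K * liftK K hauptU3 + 243 * (qInv K * liftK K X)) ^ 3 := by ring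
    _ = _ := by rw [hx, mul_one, mul_one]

/-- `j(q³) · t₃ = (t₃ + 27)(t₃ + 3)³`. -/
theorem hauptT3_jq3 (K : Type*) [CommRing K] :
    jqNModC K 3 * hauptT3 K = (hauptT3 K + 27) * (hauptT3 K + 3) ^ 3 := by
  have key := congrArg (liftK K) int_T3_jq3
  simp only [map_mul, map_pow, map_add, map_ofNat] at key
  have hx := qInv_mul_liftK_X K
  rw [jqNModC_eq, hauptT3_eq]
  calc qInv K ^ 3 * liftK K (expandPS 3 jNum) * (qInv K * liftK K hauptU3)
      = qInv K ^ 4 * (liftK K (expandPS 3 jNum) * liftK K hauptU3) := by ring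
    _ = qInv K ^ 4 * ((liftK K hauptU3 + 27 * liftK K X)
          * (liftK K hauptU3 + 3 * liftK K X) ^ 3) := by rw [key]
    _ = (qInv K * liftK K hauptU3 + 27 * (qInv K * liftK K X))
          * (qInv K * liftK K hauptU3 + 3 * (qInv K * liftK K X)) ^ 3 := by ring
    _ = _ := by rw [hx, mul_one, mul_one]

end

end Fermat.Agent.S18.HAUPT9469
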